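import Mathlib
import Fermat.Prelude.Def_CuspForm_HeckeGaloisRepDatum
import Fermat.Prelude.Def_ModularCurve_HeckeModule
import Fermat.Prelude.Def_GaloisRep_ComplexConjugation
import Fermat.Agent.S42x.Asm.Defs

/-!
# W8 (S30), top interface (helper6, chief)

`G = Gal(ℚ̄ / ℚ)`, `J = JZero N`, `T_ℓ = heckeOperatorBar N ℓ`, `𝒪` a complete discrete valuation
ring of characteristic `0` with `p` in its maximal ideal, `E` its fraction field,
`χ : heckeAlgebra N 2 S →+* 𝒪`.  We take `𝒪'' := 𝒪` in the frozen statement.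

* `StLinAdic`    : **(LA)** Mathlib only.  From an `E[G]`-module with a non-zero vector `x` such
                   that `g + d(g) g⁻¹ = a(g)` on `E[G] x` (`a : G → 𝒪`, `d : G →* 𝒪ˣ`), an element
                   `c` with `c² = 1`, `d(c) = -1`, and the continuity of `a` and `d`: a free
                   `𝒪`-module of rank `2` with `G`-action, characteristic polynomials
                   `X² - a(g) X + d(g)`, the same kernel, adically continuous.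
* `StTensorCore` : **(TC)** Mathlib only.  From compatible classes `x n j ∈ J[pⁿ]`, independent
                   modulo `pⁿ`, a common eigenvector `w` of the integer matrices of the "Hecke
                   operators" and Frobenius elements which are dense: the module, the vector `x`
                   and the function `a` of (LA).
* `StSys`        : **(SYS)** the compatible Kummer systems `x n j` with the integer Hecke matrices
                   `t ℓ` and an eigenvector `w` of the `t ℓ` with eigenvalues `χ (T_ℓ)`.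
* `StGalN`       : **(GALn)** inertia and Frobenius on `J[pⁿ]` (from S37's `StSpec`).
* `StCycAdic`    : **(CYCp)** the `p`-adic cyclotomic character with values in `𝒪ˣ`.
* (DENS), (GAL'), (STAB) are on main: `S42x.Dens.H16.stDens`, `S42x.Gal.H19.stHeckeGal`,
  `S42x.Asm.H5.h5_stab_normal`.
-/

set_option autoImplicit false
set_option synthInstance.maxHeartbeats 400000
set_option maxHeartbeats 1000000

open ModularCurve Polynomial

noncomputable section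

namespace Fermat.Agent.S30x.Asm

/-- The absolute Galois group of `ℚ`. -/
abbrev GQ : Type := AlgebraicClosure ℚ ≃ₐ[ℚ] AlgebraicClosure ℚ

/-- The `E`-span of the `G`-orbit of `x`. -/
abbrev orbitSpan {G : Type} [Group G] {E : Type} [Field E] {M : Type} [AddCommGroup M]
    [Module E M] (ρ : G →* Module.End E M) (x : M) : Submodule E M :=
  Submodule.span E (Set.range fun h : G => ρ h x)

/-- **(LA)** `lin_adic` (Mathlib only). -/
def StLinAdic : Prop :=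
  ∀ (G : Type) [Group G] (O : Type) [CommRing O] [IsDomain O] [IsDiscreteValuationRing O]
    (E : Type) [Field E] [Algebra O E] [IsFractionRing O E], (2 : E) ≠ 0 →
    ∀ (M : Type) [AddCommGroup M] [Module E M] (ρ : G →* Module.End E M) (x : M), x ≠ 0 →
    ∀ (d : G →* Oˣ) (a : G → O) (c : G), c * c = 1 → d c = -1 →
    (∀ g : G, ∀ y ∈ orbitSpan ρ x,
      ρ g y + algebraMap O E (d g : O) • ρ g⁻¹ y = algebraMap O E (a g) • y) →
    ∀ (P : Set G → Prop),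
    (∀ n : ℕ, ∃ U : Set G, P U ∧ ∀ σ ∈ U,
      ((d σ : O) - 1 ∈ IsLocalRing.maximalIdeal O ^ n) ∧
      ∀ g : G, a (g * σ) - a g ∈ IsLocalRing.maximalIdeal O ^ n) →
    ∃ (V : Type) (_ : AddCommGroup V) (_ : Module O V) (_ : Module.Free O V)
      (_ : Module.Finite O V) (ρ' : G →* Module.End O V),
      Module.finrank O V = 2 ∧
      (∀ g : G, LinearMap.charpoly (ρ' g) = X ^ 2 - C (a g) * X + C (d g : O)) ∧
      (∀ g : G, (∀ y ∈ orbitSpan ρ x, ρ g y = y) → d g = 1 → ρ' g = 1) ∧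
      (∀ n : ℕ, ∃ U : Set G, P U ∧ ∀ σ ∈ U, ∀ v : V,
        ρ' σ v - v ∈ (IsLocalRing.maximalIdeal O ^ n) • (⊤ : Submodule O V))

/-- **(TC)** the tensor core (Mathlib only).  `Frob σ a ℓ`: "`σ` is a Frobenius element of norm
`ℓ` with Hecke eigenvalue `a`"; `U n`: a set of elements fixing all translates of the `x n j` on
which `d ≡ 1` modulo `pⁿ`. -/
def StTensorCore : Prop :=
  ∀ (G : Type) [Group G] (J : Type) [AddCommGroup J] [DistribMulAction G J]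
    (O : Type) [CommRing O] [IsDomain O] [IsDiscreteValuationRing O]
    [IsAdicComplete (IsLocalRing.maximalIdeal O) O] [CharZero O]
    (E : Type) [Field E] [Algebra O E] [IsFractionRing O E]
    (p : ℕ), p.Prime → (p : O) ∈ IsLocalRing.maximalIdeal O →
    ∀ (r : ℕ) (x : ℕ → Fin r → J) (w : Fin r → O), (∃ j, w j ≠ 0) →
    (∀ n j, p ^ n • x n j = 0) →
    (∀ n (c : Fin r → ℤ), ∑ j, c j • x n j = 0 → ∀ j, (p : ℤ) ^ n ∣ c j) →
    (∀ n j, p • x (n + 1) j = x n j) →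
    ∀ (d : G →* Oˣ) (Frob : G → O → ℕ → Prop),
    (∀ σ a ℓ, Frob σ a ℓ → (d σ : O) = (ℓ : O) ∧
      ∃ (T : J →+ J) (tm : Matrix (Fin r) (Fin r) ℤ),
        (∀ (g : G) (y : J), T (g • y) = g • T y) ∧
        (∀ n j, T (x n j) = ∑ i, tm i j • x n i) ∧
        (∀ i, ∑ j, (tm i j : O) * w j = a * w i) ∧
        ∀ (n : ℕ) (y : J), p ^ n • y = 0 → σ • y + ℓ • σ⁻¹ • y = T y) →
    ∀ (U : ℕ → Set G),
    (∀ n, ∀ σ ∈ U n, ((d σ : O) - 1 ∈ Ideal.span {(p : O) ^ n}) ∧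
      ∀ (h : G) (j : Fin r), σ • h • x n j = h • x n j) →
    (∀ (n : ℕ) (g : G), ∃ σ a ℓ, Frob σ a ℓ ∧ ∃ k : ℕ, g⁻¹ * σ ^ k ∈ U n) →
    ∃ (M : Type) (_ : AddCommGroup M) (_ : Module E M) (ρ : G →* Module.End E M) (X : M)
      (a : G → O),
      X ≠ 0 ∧
      (∀ g : G, ∀ y ∈ orbitSpan ρ X,
        ρ g y + algebraMap O E (d g : O) • ρ g⁻¹ y = algebraMap O E (a g) • y) ∧
      (∀ σ a' ℓ, Frob σ a' ℓ → a σ = a') ∧
      (∀ n, ∀ σ ∈ U n, ∀ g : G, a (g * σ) - a g ∈ Ideal.span {(p : O) ^ n}) ∧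
      (∀ τ : G, (∀ (n : ℕ) (h : G) (j : Fin r), τ • h • x n j = h • x n j) →
        ∀ y ∈ orbitSpan ρ X, ρ τ y = y)

/-- **(CYCp)** the `p`-adic cyclotomic character with values in `𝒪ˣ`. -/
def StCycAdic (p : ℕ) (O : Type) [CommRing O] : Prop :=
  ∃ d : GQ →* Oˣ,
    (∀ ℓ : ℕ, ℓ.Prime → ℓ ≠ p → ∀ A : ValuationSubring (AlgebraicClosure ℚ),
      A.LiesOverPrime ℓ →
      (∀ τ ∈ A.inertiaSubgroupIn ℚ, d τ = 1) ∧
      ∀ σ : GQ, A.IsFrobeniusAt σ ℓ → (d σ : O) = (ℓ : O)) ∧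
    d complexConjugation = -1 ∧
    ∀ n : ℕ, ∃ K : IntermediateField ℚ (AlgebraicClosure ℚ), FiniteDimensional ℚ K ∧
      ∀ σ : GQ, (∀ x ∈ K, σ x = x) → (d σ : O) - 1 ∈ Ideal.span {(p : O) ^ n}

/-- **(GALn)** inertia at `q ∤ N p` acts trivially on `J[pⁿ]`, and every Frobenius element at
`ℓ ∤ N p` satisfies the Eichler–Shimura relation `σ + ℓ σ⁻¹ = T_ℓ` on `J[pⁿ]`. -/
def StGalN (N p : ℕ) [NeZero N] : Prop :=
  (∀ q : ℕ, q.Prime → ¬ q ∣ N → q ≠ p → ∀ A : ValuationSubring (AlgebraicClosure ℚ),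
    A.LiesOverPrime q → ∀ τ ∈ A.inertiaSubgroupIn ℚ, ∀ (n : ℕ) (y : JZero N),
      p ^ n • y = 0 → τ • y = y) ∧
  (∀ (ℓ : ℕ) (hℓ : ℓ.Prime), ¬ ℓ ∣ N → ℓ ≠ p → ∀ A : ValuationSubring (AlgebraicClosure ℚ),
    A.LiesOverPrime ℓ → ∀ σ : GQ, A.IsFrobeniusAt σ ℓ → ∀ (n : ℕ) (y : JZero N),
      p ^ n • y = 0 → σ • y + ℓ • σ⁻¹ • y = heckeOperatorBar N ⟨ℓ, hℓ⟩ y)

/-- **(SYS)** compatible Kummer systems in matrix form, with an eigenvector for `χ`. -/
def StSys (N p : ℕ) [NeZero N] (S : Finset ℕ) (O : Type) [CommRing O]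
    (χ : CuspForm.heckeAlgebra N 2 (↑S : Set ℕ) →+* O) : Prop :=
  ∃ (r : ℕ) (x : ℕ → Fin r → JZero N) (w : Fin r → O)
    (t : Nat.Primes → Matrix (Fin r) (Fin r) ℤ),
    (∀ n j, p ^ n • x n j = 0) ∧
    (∀ n (c : Fin r → ℤ), ∑ j, c j • x n j = 0 → ∀ j, (p : ℤ) ^ n ∣ c j) ∧
    (∀ n j, p • x (n + 1) j = x n j) ∧
    (∃ j, w j ≠ 0) ∧
    ∀ (ℓ : ℕ) (hℓ : ℓ.Prime) (hℓN : ¬ ℓ ∣ N) (hℓS : ℓ ∉ (↑S : Set ℕ)),
      (∀ n j, heckeOperatorBar N ⟨ℓ, hℓ⟩ (x n j) = ∑ i, t ⟨ℓ, hℓ⟩ i j • x n i) ∧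
      ∀ i, ∑ j, ((t ⟨ℓ, hℓ⟩ i j : ℤ) : O) * w j = χ (CuspForm.heckeAlgebra.T hℓ hℓN hℓS) * w i

/-- The conclusion of the frozen statement S30 with `𝒪'' := 𝒪`. -/
def StRep (p N : ℕ) [NeZero N] (S : Finset ℕ) (O : Type) [CommRing O] [IsLocalRing O]
    (χ : CuspForm.heckeAlgebra N 2 (↑S : Set ℕ) →+* O) : Prop :=
  ∃ ρ : GaloisRepAdic O,
    (∀ (ℓ : ℕ) (hℓ : ℓ.Prime) (hℓN : ¬ ℓ ∣ N) (hℓS : ℓ ∉ (↑S : Set ℕ)),
      ∀ A : ValuationSubring (AlgebraicClosure ℚ), A.LiesOverPrime ℓ →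
        ∀ σ : GQ, A.IsFrobeniusAt σ ℓ →
          LinearMap.charpoly (ρ.ρ σ) =
            X ^ 2 - C (χ (CuspForm.heckeAlgebra.T hℓ hℓN hℓS)) * X + C ((ℓ : O))) ∧
    (∀ q : ℕ, q.Prime → ¬ q ∣ N → q ≠ p → ρ.IsUnramifiedAt q)

end Fermat.Agent.S30x.Asm
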