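import Fermat.Agent.S30x.Asm.H10_RepRel
import Fermat.Agent.S30x.Rel.H25_RelInst
import Fermat.Agent.S30x.Lin.H6_LinAdic
import Fermat.Agent.S30x.Kum.H9_KSysSat
import Fermat.Agent.S30x.Ev.H23_MatEig
import Fermat.Agent.S37x.Move.H17_StSpec

/-!
# W8 (S30), the final plug (helper18)

`h18_stAdic` : the core statement `h10StAdic p N S O χ` for all data, hypothesis-free.  Chain:

* (A) + (MAT) : helper9's Kummer system `h9kap` for helper23's basis of the parabolic lattice,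
  with the integer Hecke matrices `h23mT N ℓ`;
* (B) : helper23's primitive eigenvector `h23m_eigen_unit` for the character `χ`;
* (C) + (E) : helper25's `h25_rel_inst` on the module `h18M p (JZero N) O`, with
  helper17's `h17_stSpec_final`;
* (F) : helper6's `lin_adic`;
* (G) : helper10's `h10_stAdic_of_rel`.
-/

set_option autoImplicit false
set_option synthInstance.maxHeartbeats 400000
set_option maxHeartbeats 1000000

open ModularCurve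

noncomputable section

namespace Fermat.Agent.S30x.Asm.H18

open Fermat.Agent.S42x.Asm (GQ)
open Fermat.Agent.S30x.Mod.H18 Fermat.Agent.S30x.Ev.H23 Fermat.Agent.S30x.Kum.H9
open Fermat.Agent.S30x.Rel.H25
open Fermat.Agent.S30x.Cyc.H27 (cycAdic)

/-- An embedding of `ℚ̄` into `ℂ`. -/
def h18Emb : AlgebraicClosure ℚ →+* ℂ :=
  haveI : Algebra.IsAlgebraic ℚ (AlgebraicClosure ℚ) := AlgebraicClosure.isAlgebraic ℚ
  (IsAlgClosed.lift (R := ℚ) (S := AlgebraicClosure ℚ) (M := ℂ)).toRingHom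

/-- The eigenvalue function: `χ (T_ℓ)` at the good primes outside `S`, `0` elsewhere. -/
def h18c {N : ℕ} [NeZero N] {S : Finset ℕ} {O : Type} [CommRing O]
    (χ : CuspForm.heckeAlgebra N 2 (↑S : Set ℕ) →+* O) (ℓ : ℕ) : O :=
  haveI : Decidable (ℓ.Prime ∧ ¬ ℓ ∣ N ∧ ℓ ∉ (↑S : Set ℕ)) := Classical.propDecidable _
  if h : ℓ.Prime ∧ ¬ ℓ ∣ N ∧ ℓ ∉ (↑S : Set ℕ) then
    χ (CuspForm.heckeAlgebra.T h.1 h.2.1 h.2.2) else 0

theorem h18c_eq {N : ℕ} [NeZero N] {S : Finset ℕ} {O : Type} [CommRing O]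
    (χ : CuspForm.heckeAlgebra N 2 (↑S : Set ℕ) →+* O) {ℓ : ℕ} (hℓ : ℓ.Prime) (hℓN : ¬ ℓ ∣ N)
    (hℓS : ℓ ∉ (↑S : Set ℕ)) : h18c χ ℓ = χ (CuspForm.heckeAlgebra.T hℓ hℓN hℓS) := by
  unfold h18c
  rw [dif_pos ⟨hℓ, hℓN, hℓS⟩]

/-- **The core of S30**, hypothesis-free. -/
theorem h18_stAdic (p : ℕ) [Fact p.Prime] (N : ℕ) [NeZero N] (S : Finset ℕ)
    (hpS : p ∈ S) (hNS : ∀ q : ℕ, q.Prime → q ∣ N → q ∈ S)
    (O : Type) [CommRing O] [IsDomain O] [IsDiscreteValuationRing O]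
    [IsAdicComplete (IsLocalRing.maximalIdeal O) O] [CharZero O]
    (hpO : (p : O) ∈ IsLocalRing.maximalIdeal O)
    (χ : CuspForm.heckeAlgebra N 2 (↑S : Set ℕ) →+* O) :
    Fermat.Agent.S30x.Asm.H10.h10StAdic p N S O χ := by
  have hp0 : p ≠ 0 := (Fact.out : p.Prime).ne_zero
  have hNS' : ∀ q : ℕ, q.Prime → q ∣ N → q ∈ (↑S : Set ℕ) := fun q hq hqN =>
    Finset.mem_coe.mpr (hNS q hq hqN)
  refine Exists.elim (h23m_eigen_unit N (↑S : Set ℕ) hNS' χ) fun w hw => ?_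
  have hT : ∀ (ℓ : ℕ) (hℓ : ℓ.Prime), ℓ ∉ S → ∀ (j : Fin (h23mRank N)) (n : ℕ),
      heckeOperatorBar N ⟨ℓ, hℓ⟩ ((h9kap N p hp0 h18Emb j : ℕ → JZero N) n)
        = ∑ i, h23mT N ℓ i j • (h9kap N p hp0 h18Emb i : ℕ → JZero N) n :=
    fun ℓ hℓ hℓS j n => h9kap_hT N p hp0 h18Emb ℓ hℓ (fun h => hℓS (hNS ℓ hℓ h)) j n
  have hc : ∀ ℓ : ℕ, ℓ.Prime → ℓ ∉ S → ∀ i,
      ∑ j, ((h23mT N ℓ i j : ℤ) : O) * w j = h18c χ ℓ * w i := by
    intro ℓ hℓ hℓS i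
    have hℓN : ¬ ℓ ∣ N := fun h => hℓS (hNS ℓ hℓ h)
    have hℓS' : ℓ ∉ (↑S : Set ℕ) := fun h => hℓS (Finset.mem_coe.mp h)
    rw [h18c_eq χ hℓ hℓN hℓS']
    exact hw.2 ℓ hℓ hℓN hℓS' i
  have hrel := h25_rel_inst N p hpO (Fermat.Agent.S37x.Move.H17.h17_stSpec_final N p) S hpS hNS
    (h9kap N p hp0 h18Emb) (h9kap_hind N p hp0 h18Emb) w hw.1 (h18c χ) (h23mT N) hT hc
  refine Exists.elim hrel fun a ha => ?_
  have hE2 : ∀ (ℓ : ℕ) (hℓ : ℓ.Prime) (hℓN : ¬ ℓ ∣ N) (hℓS : ℓ ∉ (↑S : Set ℕ)),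
      ∀ A : ValuationSubring (AlgebraicClosure ℚ), A.LiesOverPrime ℓ →
        ∀ σ : AlgebraicClosure ℚ ≃ₐ[ℚ] AlgebraicClosure ℚ, A.IsFrobeniusAt σ ℓ →
        a σ = χ (CuspForm.heckeAlgebra.T hℓ hℓN hℓS) ∧
          ((cycAdic p O hpO σ : Oˣ) : O) = (ℓ : O) := by
    intro ℓ hℓ hℓN hℓS A hA σ hσ
    have h1 := ha.2.2.2.1 ℓ hℓ (fun h => hℓS (Finset.mem_coe.mpr h)) A hA σ hσ
    rw [h18c_eq χ hℓ hℓN hℓS] at h1
    exact h1
  exact Fermat.Agent.S30x.Asm.H10.h10_stAdic_of_rel Fermat.Agent.S30x.Lin.H6.lin_adic p N S O χ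
    (h18M p (JZero N) O) (h25Rho GQ p (JZero N) O) (h25Vec O (h9kap N p hp0 h18Emb) w)
    (cycAdic p O hpO) a ha.1 ha.2.1 ha.2.2.1 hE2 ha.2.2.2.2.1 ha.2.2.2.2.2

end Fermat.Agent.S30x.Asm.H18
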