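import Fermat.Agent.S30x.Asm.Defs
import Fermat.Agent.S30x.Cyc.H10_StCycAdic
import Fermat.Agent.S42x.Asm.H5_Gal
import Fermat.Agent.S42x.Dens.H16_Dens
import Fermat.Agent.S42x.Gal.H19_StHeckeGal

/-!
# W8 (ASM-REP): `StRep` from (LA) + (TC) + (SYS) + (GALn)

The plug of the chief's interface `S30x/Asm/Defs`: from the two Mathlib-only cores `StLinAdic`,
`StTensorCore`, the compatible Kummer system with its eigenvector `StSys` and the Galois input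
`StGalN`, the representation `StRep p N S O χ` (= the conclusion of the frozen statement S30 with
`𝒪'' := 𝒪'`).  Consumed here, all on main: the `p`-adic cyclotomic character
(`h10_stCycAdic`), Frobenius density (`H16.stDens`), Hecke–Galois commutation
(`H19.stHeckeGal`), stabilisers (`H5.h5_stab_normal`), complex conjugation (prelude).
-/

set_option autoImplicit false
set_option synthInstance.maxHeartbeats 400000
set_option maxHeartbeats 1000000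

open ModularCurve Polynomial

noncomputable section

namespace Fermat.Agent.S30x.Asm.H10

open Fermat.Agent.S30x.Asm

local notation "Qbar" => AlgebraicClosure ℚ

/-- the fixing set of an intermediate field. -/
def h10Fix (K : IntermediateField ℚ Qbar) : Set GQ := {σ | ∀ a ∈ K, σ a = a}

/-- "contains the fixing group of a number field". -/
def h10Open (U : Set GQ) : Prop :=
  ∃ L : IntermediateField ℚ Qbar, FiniteDimensional ℚ L ∧ ∀ σ : GQ, (∀ x ∈ L, σ x = x) → σ ∈ U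

theorem h10_span_pow_le {O : Type*} [CommRing O] (I : Ideal O) (a : O) (ha : a ∈ I) (n : ℕ) :
    Ideal.span {a ^ n} ≤ I ^ n := by
  rw [Ideal.span_le, Set.singleton_subset_iff]
  exact Ideal.pow_mem_pow ha n

/-- **(ASM-REP)**, general form: with the cyclotomic character, density and Hecke–Galois
commutation as hypotheses. -/
theorem h10_stRep_of_all (p : ℕ) [Fact p.Prime] (N : ℕ) [NeZero N] (S : Finset ℕ)
    (hpS : p ∈ S) (hNS : ∀ q : ℕ, q.Prime → q ∣ N → q ∈ S)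
    (O : Type) [CommRing O] [IsDomain O] [IsDiscreteValuationRing O]
    [IsAdicComplete (IsLocalRing.maximalIdeal O) O] [CharZero O]
    (hpO : (p : O) ∈ IsLocalRing.maximalIdeal O)
    (χ : CuspForm.heckeAlgebra N 2 (↑S : Set ℕ) →+* O)
    (hLA : StLinAdic) (hTC : StTensorCore) (hSys : StSys N p S O χ) (hGal : StGalN N p)
    (hCyc : StCycAdic p O) (hDens : Fermat.Agent.S42x.Asm.StDens)
    (hHG : Fermat.Agent.S42x.Asm.StHeckeGal N) : StRep p N S O χ := by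
  classical
  have hpp : p.Prime := Fact.out
  obtain ⟨r, x, w, t, hx, hind, hcompat, hw, hhecke⟩ := hSys
  obtain ⟨d, hd, hdc, hdlev⟩ := hCyc
  obtain ⟨hinert, hfrobJ⟩ := hGal
  -- the level fields
  choose Kc hKcfin hKc using hdlev
  choose Ks hKsfin hKsnorm hKs using fun n : ℕ => Fermat.Agent.S42x.Asm.H5.h5_stab_normal N (x n)
  let K : ℕ → IntermediateField ℚ Qbar := fun n => Kc n ⊔ Ks n
  have hKfin : ∀ n, FiniteDimensional ℚ (K n) := fun n => by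
    have := hKcfin n
    have := hKsfin n
    exact IntermediateField.finiteDimensional_sup (Kc n) (Ks n)
  let U : ℕ → Set GQ := fun n => h10Fix (K n)
  have hUc : ∀ n, ∀ σ ∈ U n, ∀ a ∈ Kc n, σ a = a := fun n σ hσ a ha =>
    hσ a ((le_sup_left : Kc n ≤ K n) ha)
  have hUs : ∀ n, ∀ σ ∈ U n, ∀ a ∈ Ks n, σ a = a := fun n σ hσ a ha =>
    hσ a ((le_sup_right : Ks n ≤ K n) ha)
  -- Frobenius data
  let Frob : GQ → O → ℕ → Prop := fun σ a ℓ =>
    ∃ (hℓ : ℓ.Prime) (hℓN : ¬ ℓ ∣ N) (hℓS : ℓ ∉ (↑S : Set ℕ)),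
      a = χ (CuspForm.heckeAlgebra.T hℓ hℓN hℓS) ∧
      ∃ A : ValuationSubring Qbar, A.LiesOverPrime ℓ ∧ A.IsFrobeniusAt σ ℓ
  have hne : ∀ ℓ : ℕ, ℓ ∉ (↑S : Set ℕ) → ℓ ≠ p := by
    intro ℓ hℓS h
    exact hℓS (by rw [h]; exact Finset.mem_coe.2 hpS)
  have hFrob : ∀ σ a ℓ, Frob σ a ℓ → (d σ : O) = (ℓ : O) ∧
      ∃ (T : JZero N →+ JZero N) (tm : Matrix (Fin r) (Fin r) ℤ),
        (∀ (g : GQ) (y : JZero N), T (g • y) = g • T y) ∧
        (∀ n j, T (x n j) = ∑ i, tm i j • x n i) ∧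
        (∀ i, ∑ j, (tm i j : O) * w j = a * w i) ∧
        ∀ (n : ℕ) (y : JZero N), p ^ n • y = 0 → σ • y + ℓ • σ⁻¹ • y = T y := by
    rintro σ a ℓ ⟨hℓ, hℓN, hℓS, rfl, A, hA, hσ⟩
    refine ⟨(hd ℓ hℓ (hne ℓ hℓS) A hA).2 σ hσ,
      (heckeOperatorBar N ⟨ℓ, hℓ⟩).toAddMonoidHom, t ⟨ℓ, hℓ⟩, ?_, ?_, ?_, ?_⟩
    · intro g y
      exact hHG ⟨ℓ, hℓ⟩ g y
    · intro n j
      exact (hhecke ℓ hℓ hℓN hℓS).1 n j
    · intro i
      exact (hhecke ℓ hℓ hℓN hℓS).2 i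
    · intro n y hy
      exact hfrobJ ℓ hℓ hℓN (hne ℓ hℓS) A hA σ hσ n y hy
  have hU : ∀ n, ∀ σ ∈ U n, ((d σ : O) - 1 ∈ Ideal.span {(p : O) ^ n}) ∧
      ∀ (h : GQ) (j : Fin r), σ • h • x n j = h • x n j := by
    intro n σ hσ
    exact ⟨hKc n σ (hUc n σ hσ), fun h j => hKs n σ (hUs n σ hσ) h j⟩
  have hdens : ∀ (n : ℕ) (g : GQ), ∃ σ a ℓ, Frob σ a ℓ ∧ ∃ k : ℕ, g⁻¹ * σ ^ k ∈ U n := by
    intro n g
    obtain ⟨ℓ, A, σ, k, hℓ, hℓS, hA, hσ, hg⟩ := hDens (K n) (hKfin n) S g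
    have hℓS' : ℓ ∉ (↑S : Set ℕ) := fun h => hℓS (Finset.mem_coe.1 h)
    have hℓN : ¬ ℓ ∣ N := fun h => hℓS (hNS ℓ hℓ h)
    refine ⟨σ, χ (CuspForm.heckeAlgebra.T hℓ hℓN hℓS'), ℓ,
      ⟨hℓ, hℓN, hℓS', rfl, A, hA, hσ⟩, k, ?_⟩
    intro a ha
    change g⁻¹ ((σ ^ k) a) = a
    rw [← hg a ha]
    exact g.symm_apply_apply a
  -- the tensor core
  obtain ⟨M, iM1, iM2, ρ, X, a, hX, hrel, haF, hacont, hfix⟩ :=
    hTC GQ (JZero N) O (FractionRing O) p hpp hpO r x w hw hx hind hcompat d Frob hFrob U hU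
      hdens
  -- the linear-algebra core
  have h2 : (2 : FractionRing O) ≠ 0 := two_ne_zero
  have hcontLA : ∀ n : ℕ, ∃ V : Set GQ, h10Open V ∧ ∀ σ ∈ V,
      ((d σ : O) - 1 ∈ IsLocalRing.maximalIdeal O ^ n) ∧
      ∀ g : GQ, a (g * σ) - a g ∈ IsLocalRing.maximalIdeal O ^ n := by
    intro n
    refine ⟨U n, ⟨K n, hKfin n, fun σ hσ => hσ⟩, fun σ hσ => ⟨?_, fun g => ?_⟩⟩
    · exact h10_span_pow_le _ _ hpO n (hU n σ hσ).1
    · exact h10_span_pow_le _ _ hpO n (hacont n σ hσ g)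
  obtain ⟨V, iV1, iV2, iV3, iV4, ρ', hrank, hchar, hker, hcont⟩ :=
    hLA GQ O (FractionRing O) h2 M ρ X hX d a complexConjugation complexConjugation_mul_self hdc
      hrel h10Open hcontLA
  have hcont' : GaloisActionIsAdicContinuous O ρ' := by
    intro n
    obtain ⟨W, ⟨L, hLfin, hL⟩, hW⟩ := hcont n
    exact ⟨L, hLfin, fun σ hσ v => hW σ (hL σ hσ) v⟩
  refine ⟨@GaloisRepAdic.mk O _ _ V iV1 iV2 iV3 iV4 hrank ρ' hcont', ?_, ?_⟩
  · intro ℓ hℓ hℓN hℓS A hA σ hσ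
    have h1 : a σ = χ (CuspForm.heckeAlgebra.T hℓ hℓN hℓS) :=
      haF σ _ ℓ ⟨hℓ, hℓN, hℓS, rfl, A, hA, hσ⟩
    have h3 : (d σ : O) = (ℓ : O) := (hd ℓ hℓ (hne ℓ hℓS) A hA).2 σ hσ
    have h4 := hchar σ
    rw [h1, h3] at h4
    exact h4
  · intro q hq hqN hqp P hP τ hτ
    have hdτ : d τ = 1 := (hd q hq hqp P hP).1 τ hτ
    have hτfix : ∀ (n : ℕ) (h : GQ) (j : Fin r), τ • h • x n j = h • x n j := by
      intro n h j
      refine hinert q hq hqN hqp P hP τ hτ n (h • x n j) ?_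
      rw [smul_comm, hx n j]
      exact smul_zero (M := GQ) (A := JZero N) h
    exact hker τ (hfix τ hτfix) hdτ

/-- **(ASM-REP)** `StRep` from (LA) + (TC) + (SYS) + (GALn). -/
theorem h10_stRep_of (p : ℕ) [Fact p.Prime] (N : ℕ) [NeZero N] (S : Finset ℕ)
    (hpS : p ∈ S) (hNS : ∀ q : ℕ, q.Prime → q ∣ N → q ∈ S)
    (O : Type) [CommRing O] [IsDomain O] [IsDiscreteValuationRing O]
    [IsAdicComplete (IsLocalRing.maximalIdeal O) O] [CharZero O]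
    (hpO : (p : O) ∈ IsLocalRing.maximalIdeal O)
    (χ : CuspForm.heckeAlgebra N 2 (↑S : Set ℕ) →+* O)
    (hLA : StLinAdic) (hTC : StTensorCore) (hSys : StSys N p S O χ) (hGal : StGalN N p) :
    StRep p N S O χ :=
  h10_stRep_of_all p N S hpS hNS O hpO χ hLA hTC hSys hGal
    (Fermat.Agent.S30x.Cyc.H10.h10_stCycAdic p O hpO)
    Fermat.Agent.S42x.Dens.H16.stDens (Fermat.Agent.S42x.Gal.H19.stHeckeGal N)

end Fermat.Agent.S30x.Asm.H10
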