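import Fermat.Agent.S30x.Asm.H10_TopS30
import Fermat.Agent.S30x.Lin.H6_Defs
import Fermat.Prelude.Def_GaloisRep_ComplexConjugation

/-!
# W8 (G) [TOP], middle step: the core `h10StAdic` from (LA) = `StLinAdicO` and the relation data

Input: helper6's final interface `Lin.H6.StLinAdicO` (Mathlib only) and the data produced by (E)
[REL]: an `O`-module `Y` with `G_ℚ`-action, a non-torsion vector `x`, a character `d` and a
function `a` with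

* (NT) `x` is not `O`-torsion, (CC) `d c = -1` at the complex conjugation,
* (E1) `g + d(g) g⁻¹ = a(g)` on the translates of `x`,
* (E2) `a σ = χ (T_ℓ)`, `d σ = ℓ` at every Frobenius element `σ` over `ℓ ∉ S`, `ℓ ∤ N`,
* (E3) continuity of `a` and `d` (same number field for both),
* (IN) inertia at `q ∤ N`, `q ≠ p` fixes the translates of `x` and `d τ = 1`.

Output: `h10StAdic p N S O χ`, i.e. (with `h10_s30_of_forall_adic`) the frozen statement S30.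
-/

set_option autoImplicit false

open Polynomial

noncomputable section

namespace Fermat.Agent.S30x.Asm.H10

local notation "Qbar" => AlgebraicClosure ℚ
local notation "GQ'" => (AlgebraicClosure ℚ ≃ₐ[ℚ] AlgebraicClosure ℚ)

/-- "contains the fixing group of a number field". -/
def h10IsOpen (U : Set GQ') : Prop :=
  ∃ L : IntermediateField ℚ Qbar, FiniteDimensional ℚ L ∧ ∀ σ : GQ', (∀ x ∈ L, σ x = x) → σ ∈ U

/-- **(G-mid)** the core statement from `StLinAdicO` and the relation data. -/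
theorem h10_stAdic_of_rel (hLA : Fermat.Agent.S30x.Lin.H6.StLinAdicO)
    (p N : ℕ) [NeZero N] (S : Finset ℕ)
    (O : Type) [CommRing O] [IsDomain O] [IsDiscreteValuationRing O] [CharZero O]
    (χ : CuspForm.heckeAlgebra N 2 (↑S : Set ℕ) →+* O)
    (Y : Type) [AddCommGroup Y] [Module O Y] (ρ : GQ' →* Module.End O Y) (x : Y)
    (d : GQ' →* Oˣ) (a : GQ' → O)
    (hNT : ∀ s : O, s • x = 0 → s = 0)
    (hCC : d complexConjugation = -1)
    (hE1 : ∀ g h : GQ', ρ g (ρ h x) + (d g : O) • ρ g⁻¹ (ρ h x) = a g • ρ h x)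
    (hE2 : ∀ (ℓ : ℕ) (hℓ : ℓ.Prime) (hℓN : ¬ ℓ ∣ N) (hℓS : ℓ ∉ (↑S : Set ℕ)),
      ∀ A : ValuationSubring Qbar, A.LiesOverPrime ℓ → ∀ σ : GQ', A.IsFrobeniusAt σ ℓ →
        a σ = χ (CuspForm.heckeAlgebra.T hℓ hℓN hℓS) ∧ (d σ : O) = (ℓ : O))
    (hE3 : ∀ n : ℕ, ∃ K : IntermediateField ℚ Qbar, FiniteDimensional ℚ K ∧
      ∀ τ : GQ', (∀ x ∈ K, τ x = x) →
        ((d τ : O) - 1 ∈ IsLocalRing.maximalIdeal O ^ n) ∧
        ∀ g : GQ', a (τ * g) - a g ∈ IsLocalRing.maximalIdeal O ^ n)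
    (hIN : ∀ q : ℕ, q.Prime → ¬ q ∣ N → q ≠ p → ∀ A : ValuationSubring Qbar,
      A.LiesOverPrime q → ∀ τ ∈ A.inertiaSubgroupIn ℚ,
        (∀ h : GQ', ρ τ (ρ h x) = ρ h x) ∧ d τ = 1) :
    h10StAdic p N S O χ := by
  have h2 : (2 : O) ≠ 0 := two_ne_zero
  have hcont : ∀ n : ℕ, ∃ U : Set GQ', h10IsOpen U ∧ ∀ σ ∈ U,
      ((d σ : O) - 1 ∈ IsLocalRing.maximalIdeal O ^ n) ∧
      ∀ g : GQ', a (σ * g) - a g ∈ IsLocalRing.maximalIdeal O ^ n := by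
    intro n
    obtain ⟨K, hKfin, hK⟩ := hE3 n
    exact ⟨{σ | ∀ x ∈ K, σ x = x}, ⟨K, hKfin, fun σ hσ => hσ⟩, fun σ hσ => hK σ hσ⟩
  obtain ⟨V, iV1, iV2, iV3, iV4, ρ', hrank, hchar, hker, hcont'⟩ :=
    hLA GQ' O h2 Y ρ x hNT d a complexConjugation complexConjugation_mul_self hCC hE1
      h10IsOpen hcont
  have hcont'' : GaloisActionIsAdicContinuous O ρ' := by
    intro n
    obtain ⟨W, ⟨L, hLfin, hL⟩, hW⟩ := hcont' n
    exact ⟨L, hLfin, fun σ hσ v => hW σ (hL σ hσ) v⟩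
  refine ⟨@GaloisRepAdic.mk O _ _ V iV1 iV2 iV3 iV4 hrank ρ' hcont'', ?_, ?_⟩
  · intro ℓ hℓ hℓN hℓS A hA σ hσ
    obtain ⟨h1, h3⟩ := hE2 ℓ hℓ hℓN hℓS A hA σ hσ
    have h4 := hchar σ
    rw [h1, h3] at h4
    exact h4
  · intro q hq hqN hqp P hP τ hτ
    obtain ⟨h1, h3⟩ := hIN q hq hqN hqp P hP τ hτ
    exact hker τ h1 h3

theorem h10_span_singleton_pow_le {O : Type*} [CommRing O] (I : Ideal O) (a : O) (ha : a ∈ I)
    (n : ℕ) : Ideal.span {a} ^ n ≤ I ^ n :=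
  Ideal.pow_right_mono ((Ideal.span_singleton_le_iff_mem I).2 ha) n

/-- **(G-mid)**, with the continuity clause (E3) modulo `span {p} ^ n`. -/
theorem h10_stAdic_of_rel_span (hLA : Fermat.Agent.S30x.Lin.H6.StLinAdicO)
    (p N : ℕ) [NeZero N] (S : Finset ℕ)
    (O : Type) [CommRing O] [IsDomain O] [IsDiscreteValuationRing O] [CharZero O]
    (hpO : (p : O) ∈ IsLocalRing.maximalIdeal O)
    (χ : CuspForm.heckeAlgebra N 2 (↑S : Set ℕ) →+* O)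
    (Y : Type) [AddCommGroup Y] [Module O Y] (ρ : GQ' →* Module.End O Y) (x : Y)
    (d : GQ' →* Oˣ) (a : GQ' → O)
    (hNT : ∀ s : O, s • x = 0 → s = 0)
    (hCC : d complexConjugation = -1)
    (hE1 : ∀ g h : GQ', ρ g (ρ h x) + (d g : O) • ρ g⁻¹ (ρ h x) = a g • ρ h x)
    (hE2 : ∀ (ℓ : ℕ) (hℓ : ℓ.Prime) (hℓN : ¬ ℓ ∣ N) (hℓS : ℓ ∉ (↑S : Set ℕ)),
      ∀ A : ValuationSubring Qbar, A.LiesOverPrime ℓ → ∀ σ : GQ', A.IsFrobeniusAt σ ℓ →
        a σ = χ (CuspForm.heckeAlgebra.T hℓ hℓN hℓS) ∧ (d σ : O) = (ℓ : O))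
    (hE3 : ∀ n : ℕ, ∃ K : IntermediateField ℚ Qbar, FiniteDimensional ℚ K ∧
      ∀ τ : GQ', (∀ x ∈ K, τ x = x) →
        ((d τ : O) - 1 ∈ Ideal.span {(p : O)} ^ n) ∧
        ∀ g : GQ', a (τ * g) - a g ∈ Ideal.span {(p : O)} ^ n)
    (hIN : ∀ q : ℕ, q.Prime → ¬ q ∣ N → q ≠ p → ∀ A : ValuationSubring Qbar,
      A.LiesOverPrime q → ∀ τ ∈ A.inertiaSubgroupIn ℚ,
        (∀ h : GQ', ρ τ (ρ h x) = ρ h x) ∧ d τ = 1) :
    h10StAdic p N S O χ := by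
  refine h10_stAdic_of_rel hLA p N S O χ Y ρ x d a hNT hCC hE1 hE2 (fun n => ?_) hIN
  obtain ⟨K, hKfin, hK⟩ := hE3 n
  refine ⟨K, hKfin, fun τ hτ => ⟨?_, fun g => ?_⟩⟩
  · exact h10_span_singleton_pow_le _ _ hpO n (hK τ hτ).1
  · exact h10_span_singleton_pow_le _ _ hpO n ((hK τ hτ).2 g)

end Fermat.Agent.S30x.Asm.H10
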