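import Fermat.Agent.S30x.Asm.H10_TopS30
import Fermat.Agent.S30x.Asm.H10_Rep

/-!
# W8: the frozen statement S30 from the four open Props (LA), (TC), (SYS), (GALn)

`h10_s30_of_four`: the frozen statement S30 from `StLinAdic`, `StTensorCore`, `StSys` (for all
data) and `StGalN` (for all levels and primes), in the chief's `S30x/Asm/Defs` spelling.
-/

set_option autoImplicit false

open Polynomial

namespace Fermat.Agent.S30x.Asm.H10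

open Fermat.Agent.S30x.Asm

/-- `StRep` is the core statement `h10StAdic`. -/
theorem h10_stAdic_of_stRep (p N : ℕ) [NeZero N] (S : Finset ℕ) (O : Type) [CommRing O]
    [IsLocalRing O] (χ : CuspForm.heckeAlgebra N 2 (↑S : Set ℕ) →+* O)
    (h : StRep p N S O χ) : h10StAdic p N S O χ := h

/-- **W8 top**: the frozen statement S30 from (LA), (TC), (SYS), (GALn). -/
theorem h10_s30_of_four (hLA : StLinAdic) (hTC : StTensorCore)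
    (hSys : ∀ (p : ℕ) [Fact p.Prime] (N : ℕ) [NeZero N] (S : Finset ℕ)
      (_hpS : p ∈ S) (_hNS : ∀ q : ℕ, q.Prime → q ∣ N → q ∈ S)
      (𝒪' : Type) [CommRing 𝒪'] [IsDomain 𝒪'] [IsDiscreteValuationRing 𝒪']
      [IsAdicComplete (IsLocalRing.maximalIdeal 𝒪') 𝒪'] [Finite (IsLocalRing.ResidueField 𝒪')]
      [CharZero 𝒪'] (_hp𝒪' : (p : 𝒪') ∈ IsLocalRing.maximalIdeal 𝒪')
      (χ : CuspForm.heckeAlgebra N 2 (↑S : Set ℕ) →+* 𝒪'), StSys N p S 𝒪' χ)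
    (hGal : ∀ (N : ℕ) [NeZero N] (p : ℕ), p.Prime → StGalN N p) :
    ∀ (p : ℕ) [Fact p.Prime] (N : ℕ) [NeZero N] (S : Finset ℕ)
      (_hpS : p ∈ S) (_hNS : ∀ q : ℕ, q.Prime → q ∣ N → q ∈ S)
      (𝒪' : Type) [CommRing 𝒪'] [IsDomain 𝒪'] [IsDiscreteValuationRing 𝒪']
      [IsAdicComplete (IsLocalRing.maximalIdeal 𝒪') 𝒪'] [Finite (IsLocalRing.ResidueField 𝒪')]
      [CharZero 𝒪'] (_hp𝒪' : (p : 𝒪') ∈ IsLocalRing.maximalIdeal 𝒪')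
      (χ : CuspForm.heckeAlgebra N 2 (↑S : Set ℕ) →+* 𝒪'),
      ∃ (𝒪'' : Type) (_ : CommRing 𝒪'') (_ : IsDomain 𝒪'') (_ : IsDiscreteValuationRing 𝒪'')
        (_ : IsAdicComplete (IsLocalRing.maximalIdeal 𝒪'') 𝒪'')
        (_ : Finite (IsLocalRing.ResidueField 𝒪'')) (_ : CharZero 𝒪'')
        (_ : Algebra 𝒪' 𝒪'') (_ : Module.Finite 𝒪' 𝒪'') (_ : IsLocalHom (algebraMap 𝒪' 𝒪'')),
      Function.Injective (algebraMap 𝒪' 𝒪'') ∧
      ∃ ρ : GaloisRepAdic 𝒪'',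
        (∀ (ℓ : ℕ) (hℓ : ℓ.Prime) (hℓN : ¬ ℓ ∣ N) (hℓS : ℓ ∉ (↑S : Set ℕ)),
          ∀ A : ValuationSubring (AlgebraicClosure ℚ), A.LiesOverPrime ℓ →
            ∀ σ : AlgebraicClosure ℚ ≃ₐ[ℚ] AlgebraicClosure ℚ, A.IsFrobeniusAt σ ℓ →
              LinearMap.charpoly (ρ.ρ σ) =
                X ^ 2 - C (algebraMap 𝒪' 𝒪'' (χ (CuspForm.heckeAlgebra.T hℓ hℓN hℓS))) * X
                  + C ((ℓ : 𝒪''))) ∧
        (∀ q : ℕ, q.Prime → ¬ q ∣ N → q ≠ p → ρ.IsUnramifiedAt q) :=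
  h10_s30_of_forall_adic fun p _ N _ S hpS hNS 𝒪' _ _ _ _ _ _ hp𝒪' χ =>
    h10_stAdic_of_stRep p N S 𝒪' χ
      (h10_stRep_of p N S hpS hNS 𝒪' hp𝒪' χ hLA hTC (hSys p N S hpS hNS 𝒪' hp𝒪' χ)
        (hGal N p Fact.out))

end Fermat.Agent.S30x.Asm.H10
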