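import Mathlib
import Fermat.Prelude.Def_GaloisRep_Adic

/-!
# W8 (S30), leaf (G0): the small bridges of the top (helper27)

(i) `p`-adic versus `𝔪`-adic filtrations on a local ring / a discrete valuation ring `O` and on
an `O`-module:
* `span_pow_le_max_pow`, `span_singleton_pow_le_max_pow` : `(p)ⁿ ≤ 𝔪ⁿ` when `p ∈ 𝔪`;
* `exists_max_pow_eq_span` : for a DVR with `(p : O) ≠ 0`, `p ∈ 𝔪`: `∃ e > 0, ∀ n, 𝔪^(e n) = (pⁿ)`;
* `mem_span_pow_smul_top_iff` : `y ∈ (p)ⁿ • ⊤ ↔ ∃ z, pⁿ • z = y`;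
* `span_pow_smul_top_le`, `max_pow_smul_top_le`.

(ii) the predicate `PFix` ("`U` is the fixing group of a number field") for `lin_adic`:
* `pfix_of_level`, `pfix_of_level_two` : the continuity hypothesis of `StLinAdicO` from the
  output of `rel_of_dens`;
* `adicContinuous_of_pfix` : the continuity output of `StLinAdicO` is the prelude's
  `GaloisActionIsAdicContinuous`.
-/

set_option autoImplicit false
set_option linter.unusedSectionVars false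
set_option linter.unusedVariables false
set_option linter.style.haveILetI false

noncomputable section

namespace Fermat.Agent.S30x.Asm.H27

/-! ### (i) `p`-adic versus `𝔪`-adic -/

section Ideals

variable {O : Type*} [CommRing O] [IsLocalRing O] {p : ℕ}

theorem span_le_max (hp : (p : O) ∈ IsLocalRing.maximalIdeal O) :
    Ideal.span {(p : O)} ≤ IsLocalRing.maximalIdeal O := by
  rw [Ideal.span_le, Set.singleton_subset_iff]
  exact hp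

/-- `(p)ⁿ ≤ 𝔪ⁿ`. -/
theorem span_pow_le_max_pow (hp : (p : O) ∈ IsLocalRing.maximalIdeal O) (n : ℕ) :
    Ideal.span {(p : O)} ^ n ≤ IsLocalRing.maximalIdeal O ^ n :=
  Ideal.pow_right_mono (span_le_max hp) n

/-- `(pⁿ) ≤ 𝔪ⁿ`. -/
theorem span_singleton_pow_le_max_pow (hp : (p : O) ∈ IsLocalRing.maximalIdeal O) (n : ℕ) :
    Ideal.span {(p : O) ^ n} ≤ IsLocalRing.maximalIdeal O ^ n := by
  rw [← Ideal.span_singleton_pow]
  exact span_pow_le_max_pow hp n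

theorem mem_max_pow_of_mem_span_pow (hp : (p : O) ∈ IsLocalRing.maximalIdeal O) {n : ℕ} {s : O}
    (hs : s ∈ Ideal.span {(p : O) ^ n}) : s ∈ IsLocalRing.maximalIdeal O ^ n :=
  span_singleton_pow_le_max_pow hp n hs

theorem mem_span_pow_iff_dvd {n : ℕ} {s : O} :
    s ∈ Ideal.span {(p : O) ^ n} ↔ (p : O) ^ n ∣ s :=
  Ideal.mem_span_singleton

theorem mem_span_pow_iff_dvd' {n : ℕ} {s : O} :
    s ∈ Ideal.span {(p : O)} ^ n ↔ (p : O) ^ n ∣ s := by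
  rw [Ideal.span_singleton_pow]
  exact Ideal.mem_span_singleton

end Ideals

section Dvr

variable {O : Type*} [CommRing O] [IsDomain O] [IsDiscreteValuationRing O] {p : ℕ}

/-- In a discrete valuation ring in which `p ≠ 0`, the ideal `(p)` is a power of the maximal
ideal. -/
theorem exists_span_eq_max_pow (hp0 : (p : O) ≠ 0) :
    ∃ e : ℕ, Ideal.span {(p : O)} = IsLocalRing.maximalIdeal O ^ e := by
  have h1 : Ideal.span {(p : O)} ≠ ⊥ := by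
    rw [ne_eq, Ideal.span_singleton_eq_bot]
    exact hp0
  obtain ⟨ϖ, hϖ⟩ := IsDiscreteValuationRing.exists_irreducible O
  obtain ⟨e, he⟩ := IsDiscreteValuationRing.ideal_eq_span_pow_irreducible h1 hϖ
  refine ⟨e, ?_⟩
  rw [he, (IsDiscreteValuationRing.irreducible_iff_uniformizer ϖ).mp hϖ,
    Ideal.span_singleton_pow]

/-- The exponent is positive when `p ∈ 𝔪`. -/
theorem exists_span_eq_max_pow_pos (hp0 : (p : O) ≠ 0)
    (hp : (p : O) ∈ IsLocalRing.maximalIdeal O) :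
    ∃ e : ℕ, 0 < e ∧ Ideal.span {(p : O)} = IsLocalRing.maximalIdeal O ^ e := by
  obtain ⟨e, he⟩ := exists_span_eq_max_pow hp0
  refine ⟨e, ?_, he⟩
  rcases Nat.eq_zero_or_pos e with h0 | h0
  · exfalso
    rw [h0, pow_zero, Ideal.one_eq_top] at he
    have h2 : Ideal.span {(p : O)} ≤ IsLocalRing.maximalIdeal O := span_le_max hp
    rw [he] at h2
    exact (IsLocalRing.maximalIdeal.isMaximal O).ne_top (top_le_iff.mp h2)
  · exact h0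

/-- **(G0)(i)**: `∃ e > 0, ∀ n, 𝔪 ^ (e * n) = (pⁿ)`. -/
theorem exists_max_pow_eq_span (hp0 : (p : O) ≠ 0)
    (hp : (p : O) ∈ IsLocalRing.maximalIdeal O) :
    ∃ e : ℕ, 0 < e ∧ ∀ n : ℕ,
      IsLocalRing.maximalIdeal O ^ (e * n) = Ideal.span {(p : O) ^ n} := by
  obtain ⟨e, he0, he⟩ := exists_span_eq_max_pow_pos hp0 hp
  refine ⟨e, he0, fun n => ?_⟩
  rw [pow_mul, ← he, Ideal.span_singleton_pow]

/-- **(G0)(i)**, inclusion form. -/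
theorem exists_max_pow_le_span (hp0 : (p : O) ≠ 0)
    (hp : (p : O) ∈ IsLocalRing.maximalIdeal O) :
    ∃ e : ℕ, 0 < e ∧ ∀ n : ℕ,
      IsLocalRing.maximalIdeal O ^ (e * n) ≤ Ideal.span {(p : O) ^ n} := by
  obtain ⟨e, he0, he⟩ := exists_max_pow_eq_span hp0 hp
  exact ⟨e, he0, fun n => (he n).le⟩

/-- `(p : O) ≠ 0` in characteristic zero. -/
theorem natCast_ne_zero_of_charZero {O : Type*} [CommRing O] [CharZero O] {p : ℕ}
    (hp : p ≠ 0) : (p : O) ≠ 0 := Nat.cast_ne_zero.mpr hp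

end Dvr

section Modules

variable {O : Type*} [CommRing O] {p : ℕ} {Y : Type*} [AddCommGroup Y] [Module O Y]

/-- `y ∈ (pⁿ) • ⊤ ↔ ∃ z, pⁿ • z = y`. -/
theorem mem_span_singleton_pow_smul_top_iff {n : ℕ} {y : Y} :
    y ∈ (Ideal.span {(p : O) ^ n} • ⊤ : Submodule O Y) ↔ ∃ z : Y, (p : O) ^ n • z = y := by
  rw [Submodule.ideal_span_singleton_smul, Submodule.mem_smul_pointwise_iff_exists]
  constructor
  · rintro ⟨z, -, hz⟩
    exact ⟨z, hz⟩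
  · rintro ⟨z, hz⟩
    exact ⟨z, Submodule.mem_top, hz⟩

/-- `y ∈ (p)ⁿ • ⊤ ↔ ∃ z, pⁿ • z = y`. -/
theorem mem_span_pow_smul_top_iff {n : ℕ} {y : Y} :
    y ∈ (Ideal.span {(p : O)} ^ n • ⊤ : Submodule O Y) ↔ ∃ z : Y, (p : O) ^ n • z = y := by
  rw [Ideal.span_singleton_pow]
  exact mem_span_singleton_pow_smul_top_iff

variable [IsLocalRing O]

/-- `(p)ⁿ • ⊤ ≤ 𝔪ⁿ • ⊤`. -/
theorem span_pow_smul_top_le (hp : (p : O) ∈ IsLocalRing.maximalIdeal O) (n : ℕ) :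
    (Ideal.span {(p : O)} ^ n • ⊤ : Submodule O Y) ≤ IsLocalRing.maximalIdeal O ^ n • ⊤ :=
  Submodule.smul_mono_left (span_pow_le_max_pow hp n)

/-- `pⁿ • z ∈ 𝔪ⁿ • ⊤`. -/
theorem pow_smul_mem_max_pow_smul_top (hp : (p : O) ∈ IsLocalRing.maximalIdeal O) (n : ℕ)
    (z : Y) : (p : O) ^ n • z ∈ (IsLocalRing.maximalIdeal O ^ n • ⊤ : Submodule O Y) :=
  Submodule.smul_mem_smul (Ideal.pow_mem_pow hp n) Submodule.mem_top

end Modules

section DvrModules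

variable {O : Type*} [CommRing O] [IsDomain O] [IsDiscreteValuationRing O] {p : ℕ}
  {Y : Type*} [AddCommGroup Y] [Module O Y]

/-- `∃ e > 0, ∀ n, 𝔪^(e n) • ⊤ = (p)ⁿ • ⊤`, uniformly in the module. -/
theorem exists_max_pow_eq_span' (hp0 : (p : O) ≠ 0)
    (hp : (p : O) ∈ IsLocalRing.maximalIdeal O) :
    ∃ e : ℕ, 0 < e ∧ ∀ n : ℕ,
      IsLocalRing.maximalIdeal O ^ (e * n) = Ideal.span {(p : O)} ^ n := by
  obtain ⟨e, he0, he⟩ := exists_max_pow_eq_span hp0 hp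
  exact ⟨e, he0, fun n => by rw [he n, Ideal.span_singleton_pow]⟩

/-- `y ∈ 𝔪^(e n) • ⊤ → ∃ z, pⁿ • z = y`. -/
theorem exists_max_pow_smul_top_le (hp0 : (p : O) ≠ 0)
    (hp : (p : O) ∈ IsLocalRing.maximalIdeal O) :
    ∃ e : ℕ, 0 < e ∧ ∀ (Y : Type) [AddCommGroup Y] [Module O Y] (n : ℕ) (y : Y),
      y ∈ (IsLocalRing.maximalIdeal O ^ (e * n) • ⊤ : Submodule O Y) →
        ∃ z : Y, (p : O) ^ n • z = y := by
  obtain ⟨e, he0, he⟩ := exists_max_pow_eq_span hp0 hp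
  refine ⟨e, he0, fun Y _ _ n y hy => ?_⟩
  rw [he n] at hy
  exact mem_span_singleton_pow_smul_top_iff.mp hy

/-- `p`-adic separation implies `𝔪`-adic separation. -/
theorem sep_max_of_sep (hp0 : (p : O) ≠ 0) (hp : (p : O) ∈ IsLocalRing.maximalIdeal O)
    (hsep : ∀ y : Y, (∀ n : ℕ, ∃ z : Y, (p : O) ^ n • z = y) → y = 0) (y : Y)
    (hy : ∀ n : ℕ, y ∈ (IsLocalRing.maximalIdeal O ^ n • ⊤ : Submodule O Y)) : y = 0 := by
  obtain ⟨e, he0, he⟩ := exists_max_pow_eq_span hp0 hp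
  refine hsep y fun n => ?_
  have h1 := hy (e * n)
  rw [he n] at h1
  exact mem_span_singleton_pow_smul_top_iff.mp h1

end DvrModules

/-! ### (ii) the predicate `P` of `lin_adic` -/

section PFix

/-- `U` is the fixing group of a number field. -/
def PFix (U : Set (AlgebraicClosure ℚ ≃ₐ[ℚ] AlgebraicClosure ℚ)) : Prop :=
  ∃ L : IntermediateField ℚ (AlgebraicClosure ℚ), FiniteDimensional ℚ L ∧
    U = {σ | ∀ x ∈ L, σ x = x}

theorem pfix_fixing (L : IntermediateField ℚ (AlgebraicClosure ℚ)) [hL : FiniteDimensional ℚ L] :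
    PFix {σ | ∀ x ∈ L, σ x = x} := ⟨L, hL, rfl⟩

variable {O : Type} [CommRing O] [IsLocalRing O]

/-- **(G0)(ii)**: the continuity hypothesis of `StLinAdicO` (with `P := PFix`) from the level
statement (the third output of `rel_of_dens`, left multiplication only), for any ideal
`I ≤ 𝔪`. -/
theorem pfix_of_level (I : Ideal O) (hI : I ≤ IsLocalRing.maximalIdeal O)
    (d : (AlgebraicClosure ℚ ≃ₐ[ℚ] AlgebraicClosure ℚ) →* Oˣ)
    (a : (AlgebraicClosure ℚ ≃ₐ[ℚ] AlgebraicClosure ℚ) → O)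
    (h : ∀ n : ℕ, ∃ K : IntermediateField ℚ (AlgebraicClosure ℚ), FiniteDimensional ℚ K ∧
      ∀ τ : AlgebraicClosure ℚ ≃ₐ[ℚ] AlgebraicClosure ℚ, (∀ x ∈ K, τ x = x) →
        (∀ g : AlgebraicClosure ℚ ≃ₐ[ℚ] AlgebraicClosure ℚ, a (τ * g) - a g ∈ I ^ n) ∧
          ((d τ : Oˣ) : O) - 1 ∈ I ^ n) :
    ∀ n : ℕ, ∃ U : Set (AlgebraicClosure ℚ ≃ₐ[ℚ] AlgebraicClosure ℚ), PFix U ∧ ∀ σ ∈ U,
      (((d σ : Oˣ) : O) - 1 ∈ IsLocalRing.maximalIdeal O ^ n) ∧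
      ∀ g : AlgebraicClosure ℚ ≃ₐ[ℚ] AlgebraicClosure ℚ,
        a (σ * g) - a g ∈ IsLocalRing.maximalIdeal O ^ n := by
  intro n
  obtain ⟨K, hK, hKτ⟩ := h n
  refine ⟨{σ | ∀ x ∈ K, σ x = x}, ⟨K, hK, rfl⟩, fun σ hσ => ?_⟩
  obtain ⟨h1, h2⟩ := hKτ σ hσ
  exact ⟨Ideal.pow_right_mono hI n h2, fun g => Ideal.pow_right_mono hI n (h1 g)⟩

/-- The same from the two-sided level statement (the third output of `rel_of_dens`
VERBATIM). -/
theorem pfix_of_level_two (I : Ideal O) (hI : I ≤ IsLocalRing.maximalIdeal O)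
    (d : (AlgebraicClosure ℚ ≃ₐ[ℚ] AlgebraicClosure ℚ) →* Oˣ)
    (a : (AlgebraicClosure ℚ ≃ₐ[ℚ] AlgebraicClosure ℚ) → O)
    (h : ∀ n : ℕ, ∃ K : IntermediateField ℚ (AlgebraicClosure ℚ), FiniteDimensional ℚ K ∧
      ∀ τ : AlgebraicClosure ℚ ≃ₐ[ℚ] AlgebraicClosure ℚ, (∀ x ∈ K, τ x = x) →
        (∀ g : AlgebraicClosure ℚ ≃ₐ[ℚ] AlgebraicClosure ℚ,
          a (τ * g) - a g ∈ I ^ n ∧ a (g * τ) - a g ∈ I ^ n) ∧
          ((d τ : Oˣ) : O) - 1 ∈ I ^ n) :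
    ∀ n : ℕ, ∃ U : Set (AlgebraicClosure ℚ ≃ₐ[ℚ] AlgebraicClosure ℚ), PFix U ∧ ∀ σ ∈ U,
      (((d σ : Oˣ) : O) - 1 ∈ IsLocalRing.maximalIdeal O ^ n) ∧
      ∀ g : AlgebraicClosure ℚ ≃ₐ[ℚ] AlgebraicClosure ℚ,
        a (σ * g) - a g ∈ IsLocalRing.maximalIdeal O ^ n := by
  refine pfix_of_level I hI d a fun n => ?_
  obtain ⟨K, hK, hKτ⟩ := h n
  exact ⟨K, hK, fun τ hτ => ⟨fun g => ((hKτ τ hτ).1 g).1, (hKτ τ hτ).2⟩⟩

/-- The `(p)`-adic instance of `pfix_of_level_two`. -/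
theorem pfix_of_level_span {p : ℕ} (hp : (p : O) ∈ IsLocalRing.maximalIdeal O)
    (d : (AlgebraicClosure ℚ ≃ₐ[ℚ] AlgebraicClosure ℚ) →* Oˣ)
    (a : (AlgebraicClosure ℚ ≃ₐ[ℚ] AlgebraicClosure ℚ) → O)
    (h : ∀ n : ℕ, ∃ K : IntermediateField ℚ (AlgebraicClosure ℚ), FiniteDimensional ℚ K ∧
      ∀ τ : AlgebraicClosure ℚ ≃ₐ[ℚ] AlgebraicClosure ℚ, (∀ x ∈ K, τ x = x) →
        (∀ g : AlgebraicClosure ℚ ≃ₐ[ℚ] AlgebraicClosure ℚ,
          a (τ * g) - a g ∈ Ideal.span {(p : O)} ^ n) ∧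
          ((d τ : Oˣ) : O) - 1 ∈ Ideal.span {(p : O)} ^ n) :
    ∀ n : ℕ, ∃ U : Set (AlgebraicClosure ℚ ≃ₐ[ℚ] AlgebraicClosure ℚ), PFix U ∧ ∀ σ ∈ U,
      (((d σ : Oˣ) : O) - 1 ∈ IsLocalRing.maximalIdeal O ^ n) ∧
      ∀ g : AlgebraicClosure ℚ ≃ₐ[ℚ] AlgebraicClosure ℚ,
        a (σ * g) - a g ∈ IsLocalRing.maximalIdeal O ^ n :=
  pfix_of_level (Ideal.span {(p : O)}) (span_le_max hp) d a h

/-- The `𝔪`-adic instance in the shape of (E3) of `h25_rel_inst` (`d` first, then `a`). -/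
theorem pfix_of_e3
    (d : (AlgebraicClosure ℚ ≃ₐ[ℚ] AlgebraicClosure ℚ) →* Oˣ)
    (a : (AlgebraicClosure ℚ ≃ₐ[ℚ] AlgebraicClosure ℚ) → O)
    (h : ∀ n : ℕ, ∃ K : IntermediateField ℚ (AlgebraicClosure ℚ), FiniteDimensional ℚ K ∧
      ∀ τ : AlgebraicClosure ℚ ≃ₐ[ℚ] AlgebraicClosure ℚ, (∀ x ∈ K, τ x = x) →
        ((d τ : Oˣ) : O) - 1 ∈ IsLocalRing.maximalIdeal O ^ n ∧
        ∀ g : AlgebraicClosure ℚ ≃ₐ[ℚ] AlgebraicClosure ℚ,
          a (τ * g) - a g ∈ IsLocalRing.maximalIdeal O ^ n) :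
    ∀ n : ℕ, ∃ U : Set (AlgebraicClosure ℚ ≃ₐ[ℚ] AlgebraicClosure ℚ), PFix U ∧ ∀ σ ∈ U,
      (((d σ : Oˣ) : O) - 1 ∈ IsLocalRing.maximalIdeal O ^ n) ∧
      ∀ g : AlgebraicClosure ℚ ≃ₐ[ℚ] AlgebraicClosure ℚ,
        a (σ * g) - a g ∈ IsLocalRing.maximalIdeal O ^ n := by
  intro n
  obtain ⟨K, hK, hKτ⟩ := h n
  exact ⟨{σ | ∀ x ∈ K, σ x = x}, ⟨K, hK, rfl⟩, fun σ hσ => hKτ σ hσ⟩

/-- **(G0)(ii)**: the continuity output of `StLinAdicO` (with `P := PFix`) is the prelude's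
`GaloisActionIsAdicContinuous`. -/
theorem adicContinuous_of_pfix {V : Type} [AddCommGroup V] [Module O V]
    (ρ : (AlgebraicClosure ℚ ≃ₐ[ℚ] AlgebraicClosure ℚ) →* Module.End O V)
    (h : ∀ n : ℕ, ∃ U : Set (AlgebraicClosure ℚ ≃ₐ[ℚ] AlgebraicClosure ℚ), PFix U ∧
      ∀ σ ∈ U, ∀ v : V,
        ρ σ v - v ∈ (IsLocalRing.maximalIdeal O ^ n) • (⊤ : Submodule O V)) :
    GaloisActionIsAdicContinuous O ρ := by
  intro n
  obtain ⟨U, ⟨L, hL, rfl⟩, hU⟩ := h n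
  exact ⟨L, hL, fun σ hσ v => hU σ hσ v⟩

end PFix

end Fermat.Agent.S30x.Asm.H27
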